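import Fermat.Agent.TW56.LocU.Interface

/-!
# TW56 / LocU : LU-COCB, decomposition `c = unramified + coboundary` (`Stmt_cocB`)  (helper21)
-/

set_option autoImplicit false

noncomputable section

namespace Fermat.Agent.TW56.LocU

open Fermat.Agent.S53 (M2)
open Matrix

section Abs

variable {k : Type} [Field k] {G : Type} [Group G]

theorem CocB_mul_inv (ρ : G →* M2 k) (g : G) : ρ g * ρ g⁻¹ = 1 := by
  rw [← map_mul, mul_inv_cancel, map_one]

theorem CocB_inv_mul (ρ : G →* M2 k) (g : G) : ρ g⁻¹ * ρ g = 1 := by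
  rw [← map_mul, inv_mul_cancel, map_one]

theorem CocB_cob_isCoc0 (ρ : G →* M2 k) (X : M2 k) : Flat.IsCoc0 ρ (Flat.cob ρ X) where
  coc σ τ := by
    simp only [Flat.cob]
    rw [_root_.mul_inv_rev, map_mul, map_mul]
    have h := CocB_mul_inv ρ σ
    calc ρ σ * ρ τ * X * (ρ τ⁻¹ * ρ σ⁻¹) - X
        = ρ σ * (ρ τ * X * ρ τ⁻¹) * ρ σ⁻¹ - X := by simp only [mul_assoc]
      _ = ρ σ * X * ρ σ⁻¹ - X + ρ σ * (ρ τ * X * ρ τ⁻¹ - X) * ρ σ⁻¹ := by
          rw [mul_sub, sub_mul]; abel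
  tr σ := by
    simp only [Flat.cob]
    rw [trace_sub, trace_mul_comm, ← mul_assoc, CocB_inv_mul, one_mul, sub_self]

theorem CocB_sub {ρ : G →* M2 k} {c c' d : G → M2 k} (h : Flat.IsCoc0 ρ c) (h' : Flat.IsCoc0 ρ c')
    (hd : ∀ g, d g = c g - c' g) : Flat.IsCoc0 ρ d where
  coc σ τ := by
    rw [hd, hd, hd, h.coc, h'.coc, mul_sub, sub_mul]
    abel
  tr σ := by
    rw [hd, trace_sub, h.tr, h'.tr, sub_zero]

theorem CocB_cob_level (ρ : G →* M2 k) (U : Subgroup G) (hU : ∀ u ∈ U, ρ u = 1) (X : M2 k) (g u : G)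
    (hu : u ∈ U) : Flat.cob ρ X (g * u) = Flat.cob ρ X g := by
  simp only [Flat.cob]
  rw [_root_.mul_inv_rev, map_mul, map_mul, hU u hu, hU u⁻¹ (U.inv_mem hu), mul_one, one_mul]

theorem CocB_pow {N : M2 k} (hN : N * N = 0) (m : ℕ) : (1 + N) ^ m = 1 + (m : k) • N := by
  induction m with
  | zero => simp
  | succ m ih =>
    rw [pow_succ, ih, mul_add, mul_one, add_mul, one_mul, smul_mul_assoc, hN,
      smul_zero, add_zero, Nat.cast_succ, add_smul, one_smul]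
    abel

theorem CocB_pow_zero {ρ : G →* M2 k} {c : G → M2 k} (h : Flat.IsCoc0 ρ c) {g : G} (hg : c g = 0)
    (n : ℕ) : c (g ^ n) = 0 := by
  induction n with
  | zero =>
    have h1 := h.coc 1 1
    rw [mul_one, inv_one, map_one, one_mul, mul_one] at h1
    rw [pow_zero]
    exact left_eq_add.mp h1
  | succ n ih => rw [pow_succ, h.coc, ih, hg, mul_zero, zero_mul, add_zero]

/-- a cocycle of level `U` vanishing at `s₀` and at `φ` is zero. -/
theorem CocB_zero (p : ℕ) [Fact p.Prime] [CharP k p] (hA : Stmt_cocA) {ρ : G →* M2 k} {In : G → Prop}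
    {U : Subgroup G} {φ s₀ : G} (h : UCtx p ρ In U φ s₀) {d : G → M2 k} (hd : Flat.IsCoc0 ρ d)
    (hU : ∀ g, ∀ u ∈ U, d (g * u) = d g) (h1 : d s₀ = 0) (h2 : d φ = 0) (g : G) : d g = 0 := by
  obtain ⟨n, i, u, hi, hu, rfl⟩ := h.frob g
  rw [hU _ u hu, hd.coc, CocB_pow_zero hd h2, (hA p k G ρ In U φ s₀ h).2.2 d hd hU h1 i hi, mul_zero,
    zero_mul, add_zero]

end Abs

/-- **LU-COCB**. -/
theorem stmt_cocB (h0 : Stmt_LA0) (h1 : Stmt_LA1) (h2 : Stmt_LA2) (hA : Stmt_cocA) : Stmt_cocB := by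
  intro p _ k _ _ hp2 G _ ρ In U φ s₀ h
  obtain ⟨hne, hpow, hvan⟩ := hA p k G ρ In U φ s₀ h
  have h2k : (2 : k) ≠ 0 := by
    intro h20
    have h3 : ((2 : ℕ) : k) = 0 := by exact_mod_cast h20
    rw [CharP.cast_eq_zero_iff k p] at h3
    exact hp2 ((Nat.prime_dvd_prime_iff_eq Fact.out Nat.prime_two).1 h3)
  obtain ⟨N, hN⟩ : ∃ N : M2 k, N = ρ s₀ - 1 := ⟨_, rfl⟩
  have hs : ρ s₀ = 1 + N := by rw [hN]; abel
  have hN0 : N ≠ 0 := by
    intro h'
    apply hne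
    rw [hs, h', add_zero]
  have hNN : N * N = 0 := by
    rw [hN]
    exact h0 k _ (h.unip s₀ h.s0).1 (h.unip s₀ h.s0).2
  have hmul : (1 + N) * (1 - N) = 1 := by
    have : (1 + N) * (1 - N) = 1 - N * N := by noncomm_ring
    rw [this, hNN, sub_zero]
  have hmul' : (1 - N) * (1 + N) = 1 := by
    have : (1 - N) * (1 + N) = 1 - N * N := by noncomm_ring
    rw [this, hNN, sub_zero]
  have hsi : ρ s₀⁻¹ = 1 - N := by
    calc ρ s₀⁻¹ = ρ s₀⁻¹ * ((1 + N) * (1 - N)) := by rw [hmul, mul_one]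
      _ = (ρ s₀⁻¹ * ρ s₀) * (1 - N) := by rw [hs, mul_assoc]
      _ = 1 - N := by rw [CocB_inv_mul, one_mul]
  rw [← hN]
  refine ⟨?_, ?_, ?_⟩
  · obtain ⟨m, hm⟩ := hpow (φ * s₀ * φ⁻¹) (h.conj φ s₀ h.s0)
    refine ⟨(m : k) - 1, ?_⟩
    rw [map_mul, map_mul, hs, CocB_pow hNN, mul_add, add_mul, mul_one, CocB_mul_inv] at hm
    have hm' : ρ φ * N * ρ φ⁻¹ = (m : k) • N := add_left_cancel hm
    simp only [Flat.cob]
    rw [hm', sub_smul, one_smul]
  · rintro c ⟨hc, hcU, hctr⟩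
    have htr : (c s₀ * (1 + N)).trace = 0 := by
      rw [← hs]
      exact hctr s₀ h.s0
    obtain ⟨Y, hY⟩ := h1 k N (c s₀) hN0 hNN (hc.tr s₀) htr
    have hY' : c s₀ = Flat.cob ρ Y s₀ := by
      simp only [Flat.cob]
      rw [hs, hsi]
      exact hY
    -- the difference
    obtain ⟨d, hdd⟩ : ∃ d : G → M2 k, ∀ g, d g = c g - Flat.cob ρ Y g := ⟨_, fun _ => rfl⟩
    have hd : Flat.IsCoc0 ρ d := CocB_sub hc (CocB_cob_isCoc0 ρ Y) hdd
    have hdU : ∀ g, ∀ u ∈ U, d (g * u) = d g := by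
      intro g u hu
      rw [hdd, hdd, hcU g u hu, CocB_cob_level ρ U h.triv Y g u hu]
    have hds : d s₀ = 0 := by
      rw [hdd, hY', sub_self]
    have hin := hvan _ hd hdU hds
    obtain ⟨B, hB⟩ : ∃ B : M2 k, B = d φ := ⟨_, rfl⟩
    have e1 : d (s₀ * φ) = (1 + N) * B * (1 - N) := by
      rw [hd.coc, hds, zero_add, hs, hsi, hB]
    have e2 : d (s₀ * φ) = B := by
      have hi : In (φ⁻¹ * s₀ * φ) := by
        have := h.conj φ⁻¹ s₀ h.s0
        rwa [inv_inv] at this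
      have hg : s₀ * φ = φ * (φ⁻¹ * s₀ * φ) := by group
      rw [hg, hd.coc, hin _ hi, mul_zero, zero_mul, add_zero, hB]
    have e3 : (1 + N) * B * (1 - N) = B := e1.symm.trans e2
    have e4 : (1 + N) * B = B * (1 + N) := by
      calc (1 + N) * B = (1 + N) * B * ((1 - N) * (1 + N)) := by rw [hmul', mul_one]
        _ = ((1 + N) * B * (1 - N)) * (1 + N) := by rw [mul_assoc, mul_assoc, mul_assoc]
        _ = B * (1 + N) := by rw [e3]
    have e5 : B * N = N * B := by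
      rw [add_mul, mul_add, one_mul, mul_one] at e4
      exact (add_left_cancel e4).symm
    have hBtr : B.trace = 0 := by
      rw [hB]
      exact hd.tr φ
    obtain ⟨t, ht⟩ := h2 k h2k N B hN0 hNN hBtr e5
    refine ⟨Y, t, hY', ?_⟩
    rw [← ht, hB, hdd]
    abel
  · rintro c ⟨hc, hcU, -⟩ c' ⟨hc', hcU', -⟩ hs0 hφ
    funext g
    obtain ⟨d, hdd⟩ : ∃ d : G → M2 k, ∀ g, d g = c g - c' g := ⟨_, fun _ => rfl⟩
    have hd : Flat.IsCoc0 ρ d := CocB_sub hc hc' hdd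
    have := CocB_zero p hA h hd (fun g u hu => by rw [hdd, hdd, hcU g u hu, hcU' g u hu])
      (by rw [hdd, hs0, sub_self]) (by rw [hdd, hφ, sub_self]) g
    rw [hdd] at this
    exact sub_eq_zero.1 this

end Fermat.Agent.TW56.LocU

end
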