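/-
TEAM TW56 -> S56, block LOCQ, case (U) (architect helper55): `Stmt_LocUnip` of `Top/Asm.lean`,

   `#LUnip rb v ≤ #k³`  at a prime `v ≠ p` where `rb` is ramified with unipotent inertia.

PLAN.  Fix a finite level `F` of `rb` and of finitely many `c ∈ LUnip`, `U` = the subgroup of `G_v` fixing `F`.
  (TL)  there are `φ, s₀ ∈ G_v`, `s₀` inert, with `G_v = ⟨φ⟩ I U` and `I ⊆ ⟨s₀⟩ P U`, `P` = inert elements
        with a `v`-power in `U`  [TAME (helper61, landed) at the layer `(G_v/U, Ω^U)` of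
        `Local.all_padicTower`, lifting of inertia `S14.stmt_DIC`, density of `ℚ̄` in `ℚ̄_v`];
  (ABS) pure algebra: `N = rb s₀ - 1 ≠ 0`, `N² = 0`; `c` vanishes on `P`; `c s₀ = cob Y s₀` because
        `tr (c s₀ · rb s₀) = 0`; `c - cob Y` vanishes on inertia and has values in `k N`;
        so `c ↦ (c s₀, c φ)` is an injection into the image of
        `M₂(k) × k → M₂(k)², (Y, t) ↦ (cob Y s₀, t N + cob Y φ)` whose kernel has at least `#k²` elements.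
Only definitions and statements-as-Props.
-/
import Fermat.Agent.TW56.Top.Asm
import Fermat.Agent.TW56.Count.Tame
import Fermat.Agent.CFT.Local.Tower

set_option autoImplicit false

noncomputable section

namespace Fermat.Agent.TW56.LocU

open Fermat.Agent.S53 (M2)
open Fermat.Agent.CFT.Local (Gq levq)
open ExtCitation Matrix

/-! ### the abstract part -/

section Abs

variable {k : Type} [Field k] {G : Type} [Group G]

/-- trace zero cocycles of level `U` with `tr (c g · ρ g) = 0` on inertia -/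
def LU (ρ : G →* M2 k) (In : G → Prop) (U : Subgroup G) : Set (G → M2 k) :=
  {c | Flat.IsCoc0 ρ c ∧ (∀ g, ∀ u ∈ U, c (g * u) = c g) ∧ ∀ g, In g → (c g * ρ g).trace = 0}

/-- the abstract context: `In` = inertia, `U` = a level (any subgroup on which `ρ` is trivial),
`φ` = Frobenius, `s₀` = generator of tame inertia. -/
structure UCtx (p : ℕ) (ρ : G →* M2 k) (In : G → Prop) (U : Subgroup G) (φ s₀ : G) : Prop where
  s0 : In s₀
  conj : ∀ g i, In i → In (g * i * g⁻¹)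
  frob : ∀ g, ∃ (n : ℕ) (i u : G), In i ∧ u ∈ U ∧ g = φ ^ n * i * u
  tame : ∀ i, In i → ∃ (m e : ℕ) (π u : G), In π ∧ ¬ p ∣ e ∧ π ^ e ∈ U ∧ u ∈ U ∧ i = s₀ ^ m * π * u
  triv : ∀ u ∈ U, ρ u = 1
  unip : ∀ g, In g → (ρ g).trace = 2 ∧ (ρ g).det = 1
  ram : ∃ g, In g ∧ ρ g ≠ 1

end Abs

/-- LA0. `tr u = 2`, `det u = 1` ⟹ `(u - 1)² = 0` (Cayley-Hamilton, or entries). -/
def Stmt_LA0 : Prop :=
  ∀ (k : Type) [Field k] (u : M2 k), u.trace = 2 → u.det = 1 → (u - 1) * (u - 1) = 0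

/-- LA1. `N ≠ 0`, `N² = 0`, `tr A = 0`, `tr (A (1 + N)) = 0` ⟹ `A = (1 + N) Y (1 - N) - Y` for some `Y`.
[`N = !![α, β; γ, -α]`, `α² + β γ = 0`, `β ≠ 0` or `γ ≠ 0`.  In the basis `(N e, e)`: `N = !![0,1;0,0]`,
`A = !![a,b;0,-a]`, `(1+N) Y (1-N) - Y = N Y - Y N - N Y N = !![z, w - x - z; 0, -z]` for
`Y = !![x,y;z,w]`.] -/
def Stmt_LA1 : Prop :=
  ∀ (k : Type) [Field k] (N A : M2 k), N ≠ 0 → N * N = 0 → A.trace = 0 → (A * (1 + N)).trace = 0 →
    ∃ Y : M2 k, A = (1 + N) * Y * (1 - N) - Y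

/-- LA2. the centraliser of `N` in the trace zero matrices is `k N` (`2 ≠ 0`). -/
def Stmt_LA2 : Prop :=
  ∀ (k : Type) [Field k], (2 : k) ≠ 0 → ∀ N B : M2 k, N ≠ 0 → N * N = 0 → B.trace = 0 →
    B * N = N * B → ∃ t : k, B = t • N

/-- COC-A.  [`π` inert with `π ^ e ∈ U`, `p ∤ e`: `(ρ π) ^ p = 1` (LA0: `ρ π = 1 + M`, `M² = 0`, `p M = 0`) and
`(ρ π) ^ e = 1`, so `ρ π = 1`; then `c (π ^ j) = j • c π`, `c (π ^ e) = c (1 * π ^ e) = c 1 = 0`, so `c π = 0`.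
`i = s₀ ^ m * π * u`: `ρ i = ρ s₀ ^ m`; `c (s₀ ^ m) = 0` by induction if `c s₀ = 0`.] -/
def Stmt_cocA : Prop :=
  ∀ (p : ℕ) [Fact p.Prime] (k : Type) [Field k] [CharP k p] (G : Type) [Group G] (ρ : G →* M2 k)
    (In : G → Prop) (U : Subgroup G) (φ s₀ : G), UCtx p ρ In U φ s₀ →
    ρ s₀ ≠ 1 ∧ (∀ i, In i → ∃ m : ℕ, ρ i = ρ s₀ ^ m) ∧
    ∀ c : G → M2 k, Flat.IsCoc0 ρ c → (∀ g, ∀ u ∈ U, c (g * u) = c g) → c s₀ = 0 →
      ∀ i, In i → c i = 0

/-- COC-B.  `N := ρ s₀ - 1`.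
[(1) `φ s₀ φ⁻¹` is inert, `ρ (φ s₀ φ⁻¹) = (1 + N) ^ m = 1 + m N`, so `ρ φ N ρ φ⁻¹ = m N`.
(2) LA1 for `A = c s₀` gives `Y` (`ρ s₀⁻¹ = 1 - N`); `c' = c - cob Y` is a trace zero cocycle of level `U`,
`c' s₀ = 0`, so `c' = 0` on inertia (COC-A); `c' (s₀ * φ) = ρ s₀ c' φ ρ s₀⁻¹` and
`s₀ * φ = φ * (φ⁻¹ s₀ φ)` gives `c' (s₀ * φ) = c' φ`: `c' φ` commutes with `N`; LA2.
(3) `d = c - c'` vanishes at `s₀`, hence on inertia, and at `φ`, hence at `φ ^ n * i * u`.] -/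
def Stmt_cocB : Prop :=
  ∀ (p : ℕ) [Fact p.Prime] (k : Type) [Field k] [CharP k p], p ≠ 2 → ∀ (G : Type) [Group G]
    (ρ : G →* M2 k) (In : G → Prop) (U : Subgroup G) (φ s₀ : G), UCtx p ρ In U φ s₀ →
    (∃ m : k, Flat.cob ρ (ρ s₀ - 1) φ = m • (ρ s₀ - 1)) ∧
    (∀ c ∈ LU ρ In U, ∃ (Y : M2 k) (t : k), c s₀ = Flat.cob ρ Y s₀ ∧
      c φ = t • (ρ s₀ - 1) + Flat.cob ρ Y φ) ∧
    (∀ c ∈ LU ρ In U, ∀ c' ∈ LU ρ In U, c s₀ = c' s₀ → c φ = c' φ → c = c')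

/-- ABS : the count at one level.
[`Θ : M₂(k) × k →+ M₂(k) × M₂(k)`, `(Y, t) ↦ (cob Y s₀, t N + cob Y φ)`; `(x N + z, - x m) ∈ ker Θ`
(`cob N s₀ = 0`, `cob 1 = 0`, `cob N φ = m N`), and `(x, z) ↦ x N + z` is injective (`N` is not a scalar):
`#range Θ · #k² ≤ #range Θ · #ker Θ = #k⁵`.  `c ↦ (c s₀, c φ)` maps `LU` injectively into `range Θ`.] -/
def Stmt_UAbs : Prop :=
  ∀ (p : ℕ) [Fact p.Prime] (k : Type) [Field k] [Finite k] [CharP k p], p ≠ 2 → ∀ (G : Type) [Group G]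
    (ρ : G →* M2 k) (In : G → Prop) (U : Subgroup G) (φ s₀ : G), UCtx p ρ In U φ s₀ →
    (LU ρ In U).Finite ∧ (LU ρ In U).ncard ≤ Nat.card k ^ 3

/-! ### the arithmetic part -/

/-- the inertia subgroup of `G_{ℚ_q}` (`IsInertV v g` is `IsInq (v : ℕ) g` by definition). -/
def IsInq (q : ℕ) [Fact q.Prime] (g : Gq q) : Prop :=
  localGaloisToGlobal q g ∈ (padicPlace q).inertiaSubgroupIn ℚ

/-- TL1 : inertia in terms of the norm of `ℚ̄_q`.
[`CFT.Top.BrLev.mem_inertia_iff`, `CFT.lb_mem_padicPlace_iff`, `padicEmbedding_localGaloisToGlobal`,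
`localGaloisToGlobal_mem_decompositionSubgroup`: `IsInq q g ↔ ∀ a : ℚ̄, ‖ι a‖ ≤ 1 → ‖g (ι a) - ι a‖ < 1`.
Density: every `x` is in `localLevel q F` (`CFT.exists_le_localLevel` for `ℚ_q⟮x⟯`), hence in the range of
`CFT.lbPhi q 1`, and `CFT.lb_approx q 1` gives `y` with `‖x - ι y‖ ≤ 1/2`; `g` is an isometry
(`CFT.Local.padicLoc_isom` / `Flat.InertSub_norm_Gp`); ultrametric inequality.] -/
def Stmt_inertIff : Prop :=
  ∀ (q : ℕ) [Fact q.Prime] (g : Gq q),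
    IsInq q g ↔ ∀ x : PadicAlgCl q, ‖x‖ ≤ 1 → ‖g x - x‖ < 1

/-- TL2 : lifting of inertia.
[`S14.stmt_DIC` for `U = F.fixingSubgroup` (open: `IntermediateField.fixingSubgroup_isOpen`, normal:
`InfiniteGalois.normal_iff_isGalois`), `V = padicPlace q`, `σ₀ = localGaloisToGlobal q g`; an element fixed by
`U` is in `F` (`InfiniteGalois.fixedField_fixingSubgroup`).  It gives `u₀ ∈ U` with `u₀ σ₀` in the inertia
group, which is contained in the decomposition group `= range (localGaloisToGlobal q)`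
(`CFT.range_localGaloisToGlobal`): `u₀ σ₀ = loc i`; `u := i * g⁻¹`.  See `CFT/GN/DictC.lean` for a model.] -/
def Stmt_liftInert : Prop :=
  ∀ (q : ℕ) [Fact q.Prime] (F : IntermediateField ℚ (AlgebraicClosure ℚ)), FiniteDimensional ℚ F →
    IsGalois ℚ F → ∀ g : Gq q,
    (∀ b ∈ F, IsIntegral ℤ b → ‖g (padicEmbedding q b) - padicEmbedding q b‖ < 1) →
    ∃ u : Gq q, localGaloisToGlobal q u ∈ F.fixingSubgroup ∧ IsInq q (u * g)

/-- TL3 : **the structure of `G_{ℚ_q}` at a finite level.**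
[Replace `F` by its normal closure.  `U = F.fixingSubgroup.comap (localGaloisToGlobal q) ∈ (levq q).S` is normal
of finite index, `Γ = Gq q ⧸ U` acts on `L = FixedPoints.subfield U (PadicAlgCl q)` (`Local.quotAct`),
`LocAct Γ L` by `(Local.all_padicTower q).layer`.  `Count.IsIn L (mk g) ↔ ∀ x` fixed by `U`, `‖x‖ ≤ 1 →
‖g x - x‖ < 1`; `ι b` is fixed by `U` for `b ∈ F`, of norm `≤ 1` if `b` is integral.  So
`IsInq q g → IsIn L (mk g)` (TL1) and `IsIn L (mk g) → ∃ u ∈ U, IsInq q (u * g)` (TL2).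
`Count.stmt_frob`, `Count.stmt_tameCyc`, `Count.stmt_wildP` (`ℓ = q`; wild ⟹ inert); move the elements of `U`
to the right by normality.] -/
def Stmt_TameLevel : Prop :=
  ∀ (q : ℕ) [Fact q.Prime] (F : IntermediateField ℚ (AlgebraicClosure ℚ)), FiniteDimensional ℚ F →
    ∃ φ s₀ : Gq q, IsInq q s₀ ∧
      (∀ g : Gq q, ∃ (n : ℕ) (i u : Gq q), IsInq q i ∧
        localGaloisToGlobal q u ∈ F.fixingSubgroup ∧ g = φ ^ n * i * u) ∧
      (∀ i : Gq q, IsInq q i → ∃ (m a : ℕ) (π u : Gq q), IsInq q π ∧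
        localGaloisToGlobal q (π ^ (q ^ a)) ∈ F.fixingSubgroup ∧
        localGaloisToGlobal q u ∈ F.fixingSubgroup ∧ i = s₀ ^ m * π * u)

/-- FIN : the final statement is `Fermat.Agent.TW56.Stmt_LocUnip`.
[If `LUnip rb v` had more than `#k³` elements, take a finite subset `T` with `#k³ + 1` elements, `F` = the
compositum of a level of `rb` and of levels of the `c ∈ T`; `U = F.fixingSubgroup.comap (primeLocalToGlobal v)`;
`φ, s₀` from TL3; `UCtx p (GW.rbv rb v) (IsInertV v) U φ s₀` (conj: TL1 + isometry, or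
`BrLev.conj_mem_inertia`); `T ⊆ LU`, contradiction with ABS.] -/
def Stmt_Fin : Prop := Stmt_UAbs → Stmt_TameLevel → Stmt_inertIff → Stmt_LocUnip

end Fermat.Agent.TW56.LocU

end
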