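/-
TEAM TW56 -> S56, block [LOCQ] case (U), task LU-TL1: inertia of `G_{ℚ_q}` in terms of the norm of `ℚ̄_q`
(`Stmt_inertIff`).  The direct implication is `LocQ.stmt_InAbs LocQ.stmt_Dense`.
-/
import Fermat.Agent.TW56.LocU.Interface
import Fermat.Agent.TW56.LocQ.Dense
import Fermat.Agent.TW56.LocQ.InAbs

set_option autoImplicit false

noncomputable section

namespace Fermat.Agent.TW56.LocU

open Fermat.Agent.CFT.Local (Gq levq)
open ExtCitation

/-- the maximal ideal of `padicPlace q` in norms. -/
theorem InertIff_mem_nonunits (q : ℕ) [Fact q.Prime] (x : AlgebraicClosure ℚ)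
    (hx : ‖padicEmbedding q x‖ < 1) : x ∈ (padicPlace q).nonunits := by
  rw [ValuationSubring.mem_nonunits_iff_or]
  by_cases h0 : x = 0
  · exact Or.inl h0
  · right
    rw [_root_.Fermat.Agent.CFT.lb_mem_padicPlace_iff, map_inv₀, norm_inv, not_le]
    have hne : padicEmbedding q x ≠ 0 := by
      intro h
      exact h0 ((map_eq_zero (padicEmbedding q)).1 h)
    exact (one_lt_inv₀ (norm_pos_iff.2 hne)).2 hx

/-- TL1. -/
theorem stmt_inertIff : Stmt_inertIff := by
  intro q _ g
  constructor
  · intro h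
    exact LocQ.stmt_InAbs LocQ.stmt_Dense q g h
  · intro h
    refine (_root_.Fermat.Agent.CFT.Top.BrLev.mem_inertia_iff _ _).2
      ⟨localGaloisToGlobal_mem_decompositionSubgroup q g, fun a ha => ?_⟩
    refine InertIff_mem_nonunits q _ ?_
    rw [map_sub, padicEmbedding_localGaloisToGlobal]
    exact h _ ((_root_.Fermat.Agent.CFT.lb_mem_padicPlace_iff q).1 ha)

end Fermat.Agent.TW56.LocU

end
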