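/-
TEAM TW56 -> S56, block LOCQ, case (U) : 2x2 linear algebra (`Stmt_LA0`, `Stmt_LA1`, `Stmt_LA2`).
-/
import Fermat.Agent.TW56.LocU.Interface

set_option autoImplicit false

noncomputable section

namespace Fermat.Agent.TW56.LocU

open Fermat.Agent.S53 (M2)
open Fermat.Agent.CFT.Local (Gq levq)
open ExtCitation Matrix

/-- LA0. -/
theorem stmt_LA0 : Stmt_LA0 := by
  intro k _ u ht hd
  rw [Matrix.trace_fin_two] at ht
  rw [Matrix.det_fin_two] at hd
  ext i j
  fin_cases i <;> fin_cases j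
  · simp only [Matrix.mul_apply, Fin.sum_univ_two, Matrix.sub_apply, Matrix.one_apply]
    simp
    linear_combination u 0 0 * ht - hd
  · simp only [Matrix.mul_apply, Fin.sum_univ_two, Matrix.sub_apply, Matrix.one_apply]
    simp
    linear_combination u 0 1 * ht
  · simp only [Matrix.mul_apply, Fin.sum_univ_two, Matrix.sub_apply, Matrix.one_apply]
    simp
    linear_combination u 1 0 * ht
  · simp only [Matrix.mul_apply, Fin.sum_univ_two, Matrix.sub_apply, Matrix.one_apply]
    simp
    linear_combination u 1 1 * ht - hd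

/-- the shape of a nonzero nilpotent matrix. -/
theorem LA_nil {k : Type} [Field k] (N : M2 k) (h0 : N ≠ 0) (h2 : N * N = 0) :
    N 1 1 = - N 0 0 ∧ N 0 0 * N 0 0 + N 0 1 * N 1 0 = 0 ∧ (N 0 1 ≠ 0 ∨ N 1 0 ≠ 0) := by
  have e00 : N 0 0 * N 0 0 + N 0 1 * N 1 0 = 0 := by
    have := congrFun (congrFun h2 0) 0
    simpa [Matrix.mul_apply, Fin.sum_univ_two] using this
  have e01 : N 0 0 * N 0 1 + N 0 1 * N 1 1 = 0 := by
    have := congrFun (congrFun h2 0) 1
    simpa [Matrix.mul_apply, Fin.sum_univ_two] using this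
  have e10 : N 1 0 * N 0 0 + N 1 1 * N 1 0 = 0 := by
    have := congrFun (congrFun h2 1) 0
    simpa [Matrix.mul_apply, Fin.sum_univ_two] using this
  have e11 : N 1 0 * N 0 1 + N 1 1 * N 1 1 = 0 := by
    have := congrFun (congrFun h2 1) 1
    simpa [Matrix.mul_apply, Fin.sum_univ_two] using this
  have key : ¬ (N 0 1 = 0 ∧ N 1 0 = 0) := by
    rintro ⟨h01, h10⟩
    apply h0
    rw [h01, zero_mul, add_zero] at e00
    rw [h10, zero_mul, zero_add] at e11
    have h00 : N 0 0 = 0 := mul_self_eq_zero.1 e00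
    have h11 : N 1 1 = 0 := mul_self_eq_zero.1 e11
    ext i j
    fin_cases i <;> fin_cases j <;> simp [h00, h01, h10, h11]
  have ht : N 0 0 + N 1 1 = 0 := by
    by_contra ht
    apply key
    constructor
    · have : N 0 1 * (N 0 0 + N 1 1) = 0 := by linear_combination e01
      exact (mul_eq_zero.1 this).resolve_right ht
    · have : N 1 0 * (N 0 0 + N 1 1) = 0 := by linear_combination e10
      exact (mul_eq_zero.1 this).resolve_right ht
  refine ⟨by linear_combination ht, e00, ?_⟩
  by_contra h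
  push Not at h
  exact key h

theorem LA_case1 {k : Type} [Field k] (α β a b : k) (hβ : β ≠ 0) :
    ∃ Y : M2 k, (!![a, b; -(2 * a * α + b * (-(α * α) / β)) / β, -a] : M2 k)
      = (1 + !![α, β; -(α * α) / β, -α]) * Y * (1 - !![α, β; -(α * α) / β, -α]) - Y := by
  refine ⟨!![-(a * β + (1 - α) * b) / β, 0; (-(α * α) * b + β * (1 + α) * a) / (β * β), 0], ?_⟩
  rw [Matrix.one_fin_two]
  ext i j
  fin_cases i <;> fin_cases j <;>
    simp <;> field_simp <;> ring

theorem LA_case2 {k : Type} [Field k] (α γ a c : k) (hγ : γ ≠ 0) :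
    ∃ Y : M2 k, (!![a, -(2 * a * α + c * (-(α * α) / γ)) / γ; c, -a] : M2 k)
      = (1 + !![α, -(α * α) / γ; γ, -α]) * Y * (1 - !![α, -(α * α) / γ; γ, -α]) - Y := by
  refine ⟨!![0, (-(a * γ * (1 - α)) - α * α * c) / (γ * γ); 0, (-(1 + α) * c + γ * a) / γ], ?_⟩
  rw [Matrix.one_fin_two]
  ext i j
  fin_cases i <;> fin_cases j <;>
    simp <;> field_simp <;> ring

/-- LA1. -/
theorem stmt_LA1 : Stmt_LA1 := by
  intro k _ N A h0 h2 hA hAN
  obtain ⟨h11, hsq, hne⟩ := LA_nil N h0 h2
  rw [Matrix.trace_fin_two] at hA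
  have hA11 : A 1 1 = - A 0 0 := by linear_combination hA
  have hAN' : 2 * A 0 0 * N 0 0 + A 0 1 * N 1 0 + A 1 0 * N 0 1 = 0 := by
    rw [mul_add, mul_one, Matrix.trace_add, Matrix.trace_fin_two, Matrix.trace_fin_two] at hAN
    simp only [Matrix.mul_apply, Fin.sum_univ_two] at hAN
    rw [h11, hA11] at hAN
    linear_combination hAN
  rcases hne with hβ | hγ
  · obtain ⟨Y, hY⟩ := LA_case1 (N 0 0) (N 0 1) (A 0 0) (A 0 1) hβ
    have eN : N = !![N 0 0, N 0 1; -(N 0 0 * N 0 0) / N 0 1, -N 0 0] := by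
      have : N 1 0 = -(N 0 0 * N 0 0) / N 0 1 := by
        field_simp
        linear_combination hsq
      rw [← this, ← h11]
      exact Matrix.eta_fin_two N
    have eA : A = !![A 0 0, A 0 1;
        -(2 * A 0 0 * N 0 0 + A 0 1 * (-(N 0 0 * N 0 0) / N 0 1)) / N 0 1, -A 0 0] := by
      have h1 : N 1 0 = -(N 0 0 * N 0 0) / N 0 1 := by
        field_simp
        linear_combination hsq
      have : A 1 0 = -(2 * A 0 0 * N 0 0 + A 0 1 * (-(N 0 0 * N 0 0) / N 0 1)) / N 0 1 := by
        rw [← h1]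
        field_simp
        linear_combination hAN'
      rw [← this, ← hA11]
      exact Matrix.eta_fin_two A
    refine ⟨Y, ?_⟩
    rw [← eN, ← eA] at hY
    exact hY
  · obtain ⟨Y, hY⟩ := LA_case2 (N 0 0) (N 1 0) (A 0 0) (A 1 0) hγ
    have h1 : N 0 1 = -(N 0 0 * N 0 0) / N 1 0 := by
      field_simp
      linear_combination hsq
    have eN : N = !![N 0 0, -(N 0 0 * N 0 0) / N 1 0; N 1 0, -N 0 0] := by
      rw [← h1, ← h11]
      exact Matrix.eta_fin_two N
    have eA : A = !![A 0 0,
        -(2 * A 0 0 * N 0 0 + A 1 0 * (-(N 0 0 * N 0 0) / N 1 0)) / N 1 0; A 1 0, -A 0 0] := by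
      have : A 0 1 = -(2 * A 0 0 * N 0 0 + A 1 0 * (-(N 0 0 * N 0 0) / N 1 0)) / N 1 0 := by
        rw [← h1]
        field_simp
        linear_combination hAN'
      rw [← this, ← hA11]
      exact Matrix.eta_fin_two A
    refine ⟨Y, ?_⟩
    rw [← eN, ← eA] at hY
    exact hY

/-- LA2. -/
theorem stmt_LA2 : Stmt_LA2 := by
  intro k _ h2ne N B h0 h2 hB hBN
  obtain ⟨h11, hsq, hne⟩ := LA_nil N h0 h2
  rw [Matrix.trace_fin_two] at hB
  have hB11 : B 1 1 = - B 0 0 := by linear_combination hB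
  have c00 : B 0 1 * N 1 0 = N 0 1 * B 1 0 := by
    have := congrFun (congrFun hBN 0) 0
    simp only [Matrix.mul_apply, Fin.sum_univ_two] at this
    linear_combination this
  have c01 : B 0 0 * N 0 1 = N 0 0 * B 0 1 := by
    have := congrFun (congrFun hBN 0) 1
    simp only [Matrix.mul_apply, Fin.sum_univ_two] at this
    rw [h11, hB11] at this
    have h : 2 * (B 0 0 * N 0 1 - N 0 0 * B 0 1) = 0 := by linear_combination this
    have := (mul_eq_zero.1 h).resolve_left h2ne
    linear_combination this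
  have c10 : B 1 0 * N 0 0 = B 0 0 * N 1 0 := by
    have := congrFun (congrFun hBN 1) 0
    simp only [Matrix.mul_apply, Fin.sum_univ_two] at this
    rw [h11, hB11] at this
    have h : 2 * (B 1 0 * N 0 0 - B 0 0 * N 1 0) = 0 := by linear_combination this
    have := (mul_eq_zero.1 h).resolve_left h2ne
    linear_combination this
  rcases hne with hβ | hγ
  · refine ⟨B 0 1 / N 0 1, ?_⟩
    ext i j
    fin_cases i <;> fin_cases j
    · show B 0 0 = B 0 1 / N 0 1 * N 0 0
      field_simp
      linear_combination c01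
    · show B 0 1 = B 0 1 / N 0 1 * N 0 1
      field_simp
    · show B 1 0 = B 0 1 / N 0 1 * N 1 0
      field_simp
      linear_combination - c00
    · show B 1 1 = B 0 1 / N 0 1 * N 1 1
      rw [h11, hB11]
      field_simp
      linear_combination - c01
  · refine ⟨B 1 0 / N 1 0, ?_⟩
    ext i j
    fin_cases i <;> fin_cases j
    · show B 0 0 = B 1 0 / N 1 0 * N 0 0
      field_simp
      linear_combination - c10
    · show B 0 1 = B 1 0 / N 1 0 * N 0 1
      field_simp
      linear_combination c00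
    · show B 1 0 = B 1 0 / N 1 0 * N 1 0
      field_simp
    · show B 1 1 = B 1 0 / N 1 0 * N 1 1
      rw [h11, hB11]
      field_simp
      linear_combination c10

end Fermat.Agent.TW56.LocU

end
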