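/-
TEAM TW56 -> S56, block [LOCQ] case (U), task LU-TL3 (helper93): the structure of `G_{ℚ_q}` at a finite
level (`Stmt_TameLevel`).
-/
import Fermat.Agent.TW56.LocU.Interface
import Fermat.Agent.CFT.Local.Final
import Fermat.Agent.TW56.Count.TameFrob
import Fermat.Agent.TW56.Count.TameCyc
import Fermat.Agent.TW56.Count.TameWild
import Fermat.Agent.TW56.Count.TameSub
import Fermat.Agent.TW56.Count.TameResFix
import Fermat.Agent.S54.Frob95
import Fermat.Agent.CFT.LocalBridge

set_option autoImplicit false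

noncomputable section

namespace Fermat.Agent.TW56.LocU

open Fermat.Agent.CFT.Local (Gq levq)
open Fermat.Agent.CFT.Top (levAll)
open ExtCitation

attribute [local instance] Fermat.Agent.CFT.Local.quotAct

/-- wild elements are inert. -/
theorem TameLevel_wild_isIn {Γ L : Type} [Group Γ] [NormedField L] [MulSemiringAction Γ L] {u : Γ}
    (h : Count.IsWild L u) : Count.IsIn L u := by
  intro x hx
  by_cases h0 : x = 0
  · rw [h0, smul_zero, sub_zero, norm_zero]
    exact zero_lt_one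
  · exact lt_of_lt_of_le (h x h0) hx

section

variable (q : ℕ) [Fact q.Prime]

/-- the inertia condition at the layer `U`. -/
theorem TameLevel_isIn_iff (U : Subgroup (Gq q)) [U.Normal] (g : Gq q) :
    Count.IsIn (FixedPoints.subfield U (PadicAlgCl q)) (g : Gq q ⧸ U) ↔
      ∀ x : PadicAlgCl q, (∀ u ∈ U, u x = x) → ‖x‖ ≤ 1 → ‖g x - x‖ < 1 := by
  constructor
  · intro h x hx hx1
    exact h ⟨x, fun u => hx u.1 u.2⟩ hx1
  · intro h x hx1
    exact h x.1 (fun u hu => x.2 ⟨u, hu⟩) hx1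

theorem TameLevel_norm_le_one {b : AlgebraicClosure ℚ} (hb : IsIntegral ℤ b) :
    ‖padicEmbedding q b‖ ≤ 1 :=
  (_root_.Fermat.Agent.CFT.lb_mem_padicPlace_iff q).1
    (Fermat.Agent.S54.Frob95.mem_of_isIntegral (padicPlace q) hb)

end

/-- TL3. -/
theorem stmt_TameLevel (h1 : Stmt_inertIff) (h2 : Stmt_liftInert) : Stmt_TameLevel := by
  intro q _ F hF
  -- the normal closure
  set F' : IntermediateField ℚ (AlgebraicClosure ℚ) :=
    IntermediateField.normalClosure ℚ F (AlgebraicClosure ℚ) with hF'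
  have hFF' : F ≤ F' := F.le_normalClosure
  have hfd : FiniteDimensional ℚ F' := normalClosure.is_finiteDimensional ℚ F (AlgebraicClosure ℚ)
  have hnor : Normal ℚ F' := normalClosure.normal ℚ F (AlgebraicClosure ℚ)
  have hgal : IsGalois ℚ F' := { }
  have hfix : F'.fixingSubgroup ≤ F.fixingSubgroup := IntermediateField.fixingSubgroup_antitone hFF'
  have hnormal : F'.fixingSubgroup.Normal := (InfiniteGalois.normal_iff_isGalois F').2 hgal
  set U : Subgroup (Gq q) := F'.fixingSubgroup.comap (localGaloisToGlobal q) with hU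
  have hUS : U ∈ (levq q).S := ⟨F'.fixingSubgroup, ⟨hnormal, F', hfd, le_rfl⟩, rfl⟩
  have hUn : U.Normal := (levq q).normal U hUS
  have hUf : U.FiniteIndex := (levq q).fin U hUS
  have hfin : Finite (Gq q ⧸ U) := Subgroup.finite_quotient_of_finiteIndex
  have hLA := (Fermat.Agent.CFT.Local.all_padicTower q).layer U hUS
  have hUF : ∀ u ∈ U, localGaloisToGlobal q u ∈ F.fixingSubgroup := fun u hu => hfix hu
  -- the two translations
  have hdown : ∀ g : Gq q, IsInq q g →
      Count.IsIn (FixedPoints.subfield U (PadicAlgCl q)) (g : Gq q ⧸ U) := by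
    intro g hg
    rw [TameLevel_isIn_iff]
    intro x _ hx1
    exact (h1 q g).1 hg x hx1
  have hup : ∀ γ : Gq q ⧸ U, Count.IsIn (FixedPoints.subfield U (PadicAlgCl q)) γ →
      ∃ i : Gq q, IsInq q i ∧ (i : Gq q ⧸ U) = γ := by
    intro γ hγ
    induction γ using QuotientGroup.induction_on with
    | H g =>
      rw [TameLevel_isIn_iff] at hγ
      obtain ⟨u, hu, hin⟩ := h2 q F' hfd hgal g (fun b hb hbi => by
        refine hγ _ (fun u hu => ?_) (TameLevel_norm_le_one q hbi)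
        rw [← padicEmbedding_localGaloisToGlobal]
        congr 1
        exact (IntermediateField.mem_fixingSubgroup_iff _ _).1 hu b hb)
      refine ⟨u * g, hin, ?_⟩
      rw [QuotientGroup.mk_mul, (QuotientGroup.eq_one_iff u).2 hu, one_mul]
  have hsplit : ∀ a b : Gq q, (a : Gq q ⧸ U) = (b : Gq q ⧸ U) → ∃ u ∈ U, a = b * u := by
    intro a b hab
    refine ⟨b⁻¹ * a, QuotientGroup.eq.1 hab.symm, by group⟩
  -- the structure of the layer
  obtain ⟨φb, -, hφ⟩ := Count.stmt_frob Count.stmt_resFix _ _ hLA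
  obtain ⟨sb, hsb, hs⟩ := Count.stmt_tameCyc Count.stmt_tameSub Count.stmt_thetaNorm _ _ hLA
  have hq1 : ‖((q : ℕ) : FixedPoints.subfield U (PadicAlgCl q))‖ < 1 := by
    have h3 : ‖((q : ℕ) : FixedPoints.subfield U (PadicAlgCl q))‖ = ‖(q : PadicAlgCl q)‖ := by
      show ‖(((q : ℕ) : FixedPoints.subfield U (PadicAlgCl q)) : PadicAlgCl q)‖ = _
      push_cast
      rfl
    rw [h3, _root_.Fermat.Agent.CFT.lb_norm_natCast_q]
    exact inv_lt_one_of_one_lt₀ (by exact_mod_cast (Fact.out : q.Prime).one_lt)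
  have hw := Count.stmt_wildP Count.stmt_tameSub _ _ hLA q Fact.out hq1
  obtain ⟨φ, rfl⟩ := QuotientGroup.mk_surjective φb
  obtain ⟨s₀, hs₀, rfl⟩ := hup sb hsb
  refine ⟨φ, s₀, hs₀, fun g => ?_, fun i hi => ?_⟩
  · obtain ⟨n, s, hsin, hg⟩ := hφ (g : Gq q ⧸ U)
    obtain ⟨i, hi, rfl⟩ := hup s hsin
    obtain ⟨u, hu, hgu⟩ := hsplit g (φ ^ n * i) (by
      rw [hg, QuotientGroup.mk_mul, QuotientGroup.mk_pow])
    exact ⟨n, i, u, hi, hUF u hu, hgu⟩
  · obtain ⟨m, w, hwild, hiw⟩ := hs (i : Gq q ⧸ U) (hdown i hi)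
    obtain ⟨a, ha⟩ := hw w hwild
    obtain ⟨π, hπ, rfl⟩ := hup w (TameLevel_wild_isIn hwild)
    obtain ⟨u, hu, hiu⟩ := hsplit i (s₀ ^ m * π) (by
      rw [hiw, QuotientGroup.mk_mul, QuotientGroup.mk_pow])
    refine ⟨m, a, π, u, hπ, hUF _ ?_, hUF u hu, hiu⟩
    rw [← QuotientGroup.eq_one_iff, QuotientGroup.mk_pow]
    exact ha

end Fermat.Agent.TW56.LocU

end
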