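/-
TEAM TW56 -> S56, block LOCQ, case (U) : ABS, the count at one level (`Stmt_UAbs`).
-/
import Fermat.Agent.TW56.LocU.Interface

set_option autoImplicit false

noncomputable section

namespace Fermat.Agent.TW56.LocU

open Fermat.Agent.S53 (M2)
open Matrix

section Aux

variable {k : Type} [Field k] {G : Type} [Group G]

theorem UAbs_cob_add (ρ : G →* M2 k) (X Y : M2 k) (σ : G) :
    Flat.cob ρ (X + Y) σ = Flat.cob ρ X σ + Flat.cob ρ Y σ := by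
  simp only [Flat.cob, mul_add, add_mul]; abel

theorem UAbs_cob_smul (ρ : G →* M2 k) (x : k) (X : M2 k) (σ : G) :
    Flat.cob ρ (x • X) σ = x • Flat.cob ρ X σ := by
  simp only [Flat.cob, mul_smul_comm, smul_mul_assoc, smul_sub]

theorem UAbs_mul_inv (ρ : G →* M2 k) (σ : G) : ρ σ * ρ σ⁻¹ = 1 := by
  rw [← map_mul, mul_inv_cancel, map_one]

theorem UAbs_cob_one (ρ : G →* M2 k) (σ : G) : Flat.cob ρ 1 σ = 0 := by
  rw [Flat.cob, mul_one, UAbs_mul_inv, sub_self]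

theorem UAbs_cob_self (ρ : G →* M2 k) (σ : G) : Flat.cob ρ (ρ σ - 1) σ = 0 := by
  rw [Flat.cob, mul_sub, mul_one, sub_mul, mul_assoc, UAbs_mul_inv, mul_one, sub_self]

/-- `Θ (Y, t) = (cob Y s₀, t N + cob Y φ)`. -/
def UAbs_Theta (ρ : G →* M2 k) (φ s₀ : G) : M2 k × k →+ M2 k × M2 k where
  toFun := fun Yt => (Flat.cob ρ Yt.1 s₀, Yt.2 • (ρ s₀ - 1) + Flat.cob ρ Yt.1 φ)
  map_zero' := by simp [Flat.cob]
  map_add' := by
    rintro ⟨Y, t⟩ ⟨Y', t'⟩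
    refine Prod.ext ?_ ?_
    · exact UAbs_cob_add ρ Y Y' s₀
    · show (t + t') • (ρ s₀ - 1) + Flat.cob ρ (Y + Y') φ =
        (t • (ρ s₀ - 1) + Flat.cob ρ Y φ) + (t' • (ρ s₀ - 1) + Flat.cob ρ Y' φ)
      rw [UAbs_cob_add, add_smul]; abel

theorem UAbs_Theta_apply (ρ : G →* M2 k) (φ s₀ : G) (Y : M2 k) (t : k) :
    UAbs_Theta ρ φ s₀ (Y, t) = (Flat.cob ρ Y s₀, t • (ρ s₀ - 1) + Flat.cob ρ Y φ) := rfl

theorem UAbs_ker_mem (ρ : G →* M2 k) (φ s₀ : G) (m : k)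
    (hm : Flat.cob ρ (ρ s₀ - 1) φ = m • (ρ s₀ - 1)) (x z : k) :
    (x • (ρ s₀ - 1) + z • (1 : M2 k), -(x * m)) ∈ (UAbs_Theta ρ φ s₀).ker := by
  rw [AddMonoidHom.mem_ker, UAbs_Theta_apply]
  refine Prod.ext ?_ ?_
  · show Flat.cob ρ (x • (ρ s₀ - 1) + z • (1 : M2 k)) s₀ = 0
    rw [UAbs_cob_add, UAbs_cob_smul, UAbs_cob_smul, UAbs_cob_self, UAbs_cob_one, smul_zero,
      smul_zero, add_zero]
  · show (-(x * m)) • (ρ s₀ - 1) + Flat.cob ρ (x • (ρ s₀ - 1) + z • (1 : M2 k)) φ = 0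
    rw [UAbs_cob_add, UAbs_cob_smul, UAbs_cob_smul, hm, UAbs_cob_one, smul_zero, add_zero,
      smul_smul, neg_smul, neg_add_cancel]

theorem UAbs_inj (N : M2 k) (hN : N ≠ 0) (hNN : N * N = 0) {x z x' z' : k}
    (h : x • N + z • (1 : M2 k) = x' • N + z' • (1 : M2 k)) : x = x' ∧ z = z' := by
  have h1 : (x - x') • N = (z' - z) • (1 : M2 k) := by
    rw [sub_smul, sub_smul, sub_eq_sub_iff_add_eq_add, h]; abel
  have hx : x = x' := by
    by_contra hne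
    have hne' : x - x' ≠ 0 := sub_ne_zero.2 hne
    have h2 : N = ((x - x')⁻¹ * (z' - z)) • (1 : M2 k) := by
      rw [mul_smul, ← h1, smul_smul, inv_mul_cancel₀ hne', one_smul]
    set l := (x - x')⁻¹ * (z' - z) with hl
    have h3 : (l * l) • (1 : M2 k) = 0 := by
      rw [← hNN, h2, smul_mul_smul_comm, mul_one]
    have h4 : l * l = 0 := by
      have := congrFun (congrFun h3 0) 0
      simpa using this
    have h5 : l = 0 := mul_self_eq_zero.1 h4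
    apply hN
    rw [h2, h5, zero_smul]
  refine ⟨hx, ?_⟩
  rw [hx, sub_self, zero_smul] at h1
  have := congrFun (congrFun h1 0) 0
  have h6 : z' - z = 0 := by simpa using this.symm
  exact (sub_eq_zero.1 h6).symm

theorem UAbs_card_M2 [Finite k] : Nat.card (M2 k) = Nat.card k ^ 4 := by
  show Nat.card (Fin 2 → Fin 2 → k) = _
  rw [Nat.card_fun, Nat.card_fun, Nat.card_fin, ← pow_mul]

end Aux

theorem stmt_UAbs (h0 : Stmt_LA0) (hA : Stmt_cocA) (hB : Stmt_cocB) : Stmt_UAbs := by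
  intro p _ k _ _ _ hp2 G _ ρ In U φ s₀ hC
  obtain ⟨hs1, -, -⟩ := hA p k G ρ In U φ s₀ hC
  obtain ⟨⟨m, hm⟩, hex, hinj⟩ := hB p k hp2 G ρ In U φ s₀ hC
  have hN : ρ s₀ - 1 ≠ 0 := sub_ne_zero.2 hs1
  have hNN : (ρ s₀ - 1) * (ρ s₀ - 1) = 0 :=
    h0 k (ρ s₀) (hC.unip s₀ hC.s0).1 (hC.unip s₀ hC.s0).2
  set Θ := UAbs_Theta ρ φ s₀ with hΘ
  have hq : 0 < Nat.card k := Nat.card_pos
  -- the kernel is large
  have hker : Nat.card k ^ 2 ≤ Nat.card Θ.ker := by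
    have h1 : Nat.card (k × k) = Nat.card k ^ 2 := by rw [Nat.card_prod, sq]
    rw [← h1]
    refine Nat.card_le_card_of_injective
      (fun xz : k × k => (⟨_, UAbs_ker_mem ρ φ s₀ m hm xz.1 xz.2⟩ : Θ.ker)) ?_
    rintro ⟨x, z⟩ ⟨x', z'⟩ h
    have h2 := congrArg (fun w : Θ.ker => w.1.1) h
    obtain ⟨h3, h4⟩ := UAbs_inj (ρ s₀ - 1) hN hNN h2
    exact Prod.ext h3 h4
  -- range * ker = #k ^ 5
  have hcard : Nat.card Θ.range * Nat.card Θ.ker = Nat.card k ^ 5 := by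
    have h1 := AddSubgroup.card_eq_card_quotient_mul_card_addSubgroup Θ.ker
    rw [Nat.card_congr (QuotientAddGroup.quotientKerEquivRange Θ).toEquiv, Nat.card_prod,
      UAbs_card_M2] at h1
    rw [← h1]; ring
  have hrange : Nat.card Θ.range ≤ Nat.card k ^ 3 := by
    have h1 : Nat.card Θ.range * Nat.card k ^ 2 ≤ Nat.card k ^ 3 * Nat.card k ^ 2 := by
      calc Nat.card Θ.range * Nat.card k ^ 2 ≤ Nat.card Θ.range * Nat.card Θ.ker :=
            Nat.mul_le_mul_left _ hker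
        _ = Nat.card k ^ 5 := hcard
        _ = Nat.card k ^ 3 * Nat.card k ^ 2 := by ring
    exact Nat.le_of_mul_le_mul_right h1 (pow_pos hq 2)
  -- the map `c ↦ (c s₀, c φ)`
  have hmaps : ∀ c ∈ LU ρ In U, ((c s₀, c φ) : M2 k × M2 k) ∈ (Θ.range : Set (M2 k × M2 k)) := by
    intro c hc
    obtain ⟨Y, t, h1, h2⟩ := hex c hc
    exact ⟨(Y, t), by rw [hΘ, UAbs_Theta_apply, h1, h2]⟩
  have hinjOn : Set.InjOn (fun c : G → M2 k => ((c s₀, c φ) : M2 k × M2 k)) (LU ρ In U) := by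
    intro c hc c' hc' h
    exact hinj c hc c' hc' (congrArg Prod.fst h) (congrArg Prod.snd h)
  have hfin : (Θ.range : Set (M2 k × M2 k)).Finite := Set.toFinite _
  refine ⟨Set.Finite.of_injOn hmaps hinjOn hfin, ?_⟩
  refine (Set.ncard_le_ncard_of_injOn _ hmaps hinjOn hfin).trans ?_
  rw [← Nat.card_coe_set_eq]
  exact hrange

end Fermat.Agent.TW56.LocU

end
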